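import Mathlib
import Fermat.Prelude.Def_ModularCurve_PeriodHomPair
import Fermat.Prelude.Def_ModularForm_HeckeOperatorForms
import Fermat.Prelude.Sol.S_ModularForm_heckeT_slash_eq_self_of_mem_Gamma0
import Fermat.Agent.S21.H99.Primitive

/-!
# S16, LOWER block, package L4a: Hecke equivariance of the period map

If `g = ∑ i, f ∣[2] α i` for a finite family `α i ∈ GL(2, ℝ)⁺` and `γ ∈ Γ₀(N)` satisfies
`α i * γ = c i * α (σ i)` with `c i ∈ Γ₀(N)` and `σ` a permutation, then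
`periodMap N g γ = ∑ i, periodMap N f (c i)`.

The primitive of `∑ i, f ∣[2] α i` is `∑ i, F ∘ α i` up to a constant, which cancels in periods.
-/

set_option autoImplicit false

open UpperHalfPlane ModularForm CongruenceSubgroup Filter Topology Matrix.SpecialLinearGroup
open scoped MatrixGroups ModularForm Manifold Pointwise

namespace Fermat.Agent.S16.H99

open Fermat.Agent.S22.H68 (IsPrim)
open Fermat.Agent.S21.H99 (exists_hasEquivariantPrimitive periodMap_apply)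
open ModularCurve ModularCurve.Period

/-- Chain rule: if `Ψ` is a primitive of `φ` and `g ∈ GL(2, ℝ)⁺`, then `Ψ ∘ g` is a primitive of
`φ ∣[2] g`. -/
theorem isPrim_smul_GL {Ψ φ : ℍ → ℂ} (h : IsPrim Ψ φ) (g : GL (Fin 2) ℝ) (hg : 0 < g.val.det) :
    IsPrim (fun z => Ψ (g • z)) (φ ∣[(2 : ℤ)] g) := by
  intro z
  have h_smul : HasDerivAt (fun w : ℂ ↦ ((g • ofComplex w : ℍ) : ℂ))
      ((g.val.det : ℂ) / denom g z ^ 2) z := (hasStrictDerivAt_smul hg z).hasDerivAt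
  have h_F : HasDerivAt (Ψ ∘ ofComplex) (φ (g • z))
      ((fun w : ℂ ↦ ((g • ofComplex w : ℍ) : ℂ)) z) := by
    show HasDerivAt (Ψ ∘ ofComplex) (φ (g • z)) ((g • ofComplex (z : ℂ) : ℍ) : ℂ)
    rw [ofComplex_apply]
    exact h (g • z)
  have hcomp := HasDerivAt.comp (z : ℂ) h_F h_smul
  have hdet' : 0 < g.det.val := by rwa [Matrix.GeneralLinearGroup.val_det_apply]
  have hval : (φ ∣[(2 : ℤ)] g) z = φ (g • z) * ((g.val.det : ℂ) / denom g z ^ 2) := by
    rw [ModularForm.slash_apply, UpperHalfPlane.σ, if_pos hdet',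
      Matrix.GeneralLinearGroup.val_det_apply, abs_of_pos hg]
    simp only [ContinuousAlgEquiv.refl_apply, Int.reduceSub, zpow_one, zpow_neg]
    rw [div_eq_mul_inv, mul_assoc]
    rfl
  rw [hval]
  refine hcomp.congr_of_eventuallyEq ?_
  filter_upwards [isOpen_upperHalfPlaneSet.mem_nhds z.im_pos] with w hw
  simp only [Function.comp_apply, ofComplex_apply]

variable {N : ℕ}

/-- **L4a, generic form.** Hecke equivariance of the period map for a finite family of matrices of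
positive determinant permuted by `γ` up to left multiplication by `Γ₀(N)`. -/
theorem periodMap_eq_sum_of_rel [NeZero N] {ι : Type*} [Fintype ι] (α : ι → GL (Fin 2) ℝ)
    (hdet : ∀ i, 0 < (α i).det.val)
    (f g : CuspForm (Gamma0 N) 2) (hg : ∀ τ : ℍ, g τ = ∑ i, (⇑f ∣[(2 : ℤ)] α i) τ)
    (γ : Gamma0 N) (σ : ι ≃ ι) (c : ι → Gamma0 N)
    (hrel : ∀ i, α i * mapGL ℝ (γ : SL(2, ℤ)) = mapGL ℝ (c i : SL(2, ℤ)) * α (σ i)) :
    periodMap N g (Additive.ofMul γ) = ∑ i, periodMap N f (Additive.ofMul (c i)) := by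
  obtain ⟨F, hF⟩ := exists_hasEquivariantPrimitive N f
  obtain ⟨G, hG⟩ := exists_hasEquivariantPrimitive N g
  have hFprim : IsPrim F ⇑f := hF.1
  have hGprim : IsPrim G ⇑g := hG.1
  have hFT : IsPrim (fun z => ∑ i, F (α i • z)) ⇑g := by
    have h1 := IsPrim.sum Finset.univ (Ψ := fun i z => F (α i • z))
      (F := fun i => ⇑f ∣[(2 : ℤ)] α i)
      (fun i _ => isPrim_smul_GL hFprim (α i)
        (by rw [← Matrix.GeneralLinearGroup.val_det_apply]; exact hdet i))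
    exact h1.congr_right (fun z => (hg z).symm)
  obtain ⟨k, hk⟩ := hFT.exists_const hGprim
  rw [periodMap_apply hG γ]
  have e1 : G ((γ : SL(2, ℤ)) • UpperHalfPlane.I) - G UpperHalfPlane.I =
      (∑ i, F (α i • ((γ : SL(2, ℤ)) • UpperHalfPlane.I))) -
        ∑ i, F (α i • UpperHalfPlane.I) := by
    have h1 : (∑ i, F (α i • ((γ : SL(2, ℤ)) • UpperHalfPlane.I))) =
        G ((γ : SL(2, ℤ)) • UpperHalfPlane.I) + k := hk ((γ : SL(2, ℤ)) • UpperHalfPlane.I)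
    have h2 : (∑ i, F (α i • UpperHalfPlane.I)) = G UpperHalfPlane.I + k := hk UpperHalfPlane.I
    rw [h1, h2]
    ring
  rw [e1]
  have e2 : ∀ i, F (α i • ((γ : SL(2, ℤ)) • UpperHalfPlane.I)) =
      F (α (σ i) • UpperHalfPlane.I) + periodMap N f (Additive.ofMul (c i)) := by
    intro i
    have h1 : α i • ((γ : SL(2, ℤ)) • UpperHalfPlane.I) =
        (c i : SL(2, ℤ)) • (α (σ i) • UpperHalfPlane.I) := by
      show α i • (mapGL ℝ (γ : SL(2, ℤ)) • UpperHalfPlane.I) =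
        mapGL ℝ (c i : SL(2, ℤ)) • (α (σ i) • UpperHalfPlane.I)
      rw [← mul_smul, ← mul_smul, hrel i]
    rw [h1]
    obtain ⟨d, hd⟩ := hF.2.2.1 (c i)
    have h2 := periodMap_apply hF (c i)
    rw [hd UpperHalfPlane.I] at h2
    rw [h2, ← hd (α (σ i) • UpperHalfPlane.I)]
    ring
  simp_rw [e2]
  rw [Finset.sum_add_distrib, Equiv.sum_comp σ (fun i => F (α i • UpperHalfPlane.I))]
  ring

/-! ### The Prelude representatives -/

section Instances

open P2MW.S_ModularForm_heckeT_slash_eq_self_of_mem_Gamma0.ModularForm.HeckeSlashInvariance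

theorem dvd_of_mem_Gamma0 (γ : Gamma0 N) : (N : ℤ) ∣ (γ : SL(2, ℤ)) 1 0 :=
  (ZMod.intCast_zmod_eq_zero_iff_dvd _ _).mp (Gamma0_mem.mp γ.2)

theorem mem_Gamma0_of_dvd {g : SL(2, ℤ)} (h : (N : ℤ) ∣ g 1 0) : g ∈ Gamma0 N :=
  Gamma0_mem.mpr ((ZMod.intCast_zmod_eq_zero_iff_dvd _ _).mpr h)

theorem det_heckeRep_pos (ℓ : ℕ) (x : OnePoint (ZMod ℓ)) : 0 < (heckeRep ℓ x).det.val := by
  induction x using OnePoint.rec with
  | infty => exact det_heckeDiagMatrix_pos ℓ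
  | coe j => exact det_heckeMatrix_pos ℓ j.val

/-- **L4a for `T_ℓ`** (`ℓ ∤ N`), with the Prelude representatives indexed by `ℙ¹(𝔽_ℓ)`. -/
theorem periodMap_heckeTLin [NeZero N] {ℓ : ℕ} [Fact ℓ.Prime] (hℓN : ¬ ℓ ∣ N)
    (f : CuspForm (Gamma0 N) 2) (γ : Gamma0 N) :
    ∃ c : OnePoint (ZMod ℓ) → Gamma0 N,
      (∀ x, heckeRep ℓ x * mapGL ℝ (γ : SL(2, ℤ)) =
        mapGL ℝ (c x : SL(2, ℤ)) * heckeRep ℓ (redMatrix ℓ (γ : SL(2, ℤ)) • x)) ∧
      periodMap N (CuspForm.heckeTLin 2 (Fact.out : ℓ.Prime) hℓN f) (Additive.ofMul γ) =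
        ∑ x, periodMap N f (Additive.ofMul (c x)) := by
  have hγ := dvd_of_mem_Gamma0 γ
  choose g' hg' hrel using fun x => heckeRep_mul hℓN (γ : SL(2, ℤ)) hγ x
  refine ⟨fun x => ⟨g' x, mem_Gamma0_of_dvd (hg' x)⟩, hrel, ?_⟩
  refine periodMap_eq_sum_of_rel (heckeRep ℓ) (det_heckeRep_pos ℓ) f _ ?_ γ
    (MulAction.toPerm (redMatrix ℓ (γ : SL(2, ℤ)))) _ hrel
  intro τ
  rw [CuspForm.heckeTLin_apply_apply, heckeT_eq_sum_onePoint, Finset.sum_apply]

/-- **L4a for `U_q`** (`q ∣ N`), with the Prelude representatives indexed by `𝔽_q`. -/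
theorem periodMap_heckeULin [NeZero N] {q : ℕ} [NeZero q] (hqN : q ∣ N)
    (f : CuspForm (Gamma0 N) 2) (γ : Gamma0 N) :
    ∃ (hc : (((γ : SL(2, ℤ)) 1 0 : ℤ) : ZMod q) = 0) (c : ZMod q → Gamma0 N),
      (∀ x, heckeMatrix q x.val * mapGL ℝ (γ : SL(2, ℤ)) =
        mapGL ℝ (c x : SL(2, ℤ)) * heckeMatrix q (affinePerm (γ : SL(2, ℤ)) hc x).val) ∧
      periodMap N (CuspForm.heckeULin 2 hqN f) (Additive.ofMul γ) =
        ∑ x, periodMap N f (Additive.ofMul (c x)) := by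
  have hγ := dvd_of_mem_Gamma0 γ
  have hq : (q : ℤ) ∣ (γ : SL(2, ℤ)) 1 0 := (Int.natCast_dvd_natCast.mpr hqN).trans hγ
  have hc : (((γ : SL(2, ℤ)) 1 0 : ℤ) : ZMod q) = 0 :=
    (ZMod.intCast_zmod_eq_zero_iff_dvd _ _).mpr hq
  choose g' hg' hrel using fun x => heckeMatrix_mul_of_dvd (γ : SL(2, ℤ)) hq x
  have hmem : ∀ x, g' x ∈ Gamma0 N := fun x => by
    refine mem_Gamma0_of_dvd ?_
    rw [hg' x]
    exact Dvd.dvd.mul_left hγ _
  refine ⟨hc, fun x => ⟨g' x, hmem x⟩, hrel, ?_⟩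
  refine periodMap_eq_sum_of_rel (fun x : ZMod q => heckeMatrix q x.val)
    (fun x => det_heckeMatrix_pos q x.val) f _ ?_ γ (affinePerm (γ : SL(2, ℤ)) hc) _ hrel
  intro τ
  rw [CuspForm.heckeULin_apply_apply, heckeU_eq_sum_zmod, Finset.sum_apply]

end Instances

end Fermat.Agent.S16.H99
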