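import Mathlib
import Fermat.Prelude.Def_ModularCurve_ModularUnit

/-!
# S16, UPPER block, package U9 (ARITH)

For a prime `p ≥ 5` put `n = (p - 1) / gcd(p - 1, 12)` (the Eisenstein numerator) and
`κ = (p + 1) · gcd(p - 1, 12) / 24`.  Then `(p² - 1) / 24 = n · κ`, and every prime `l ∣ κ` is in
one of the three exceptional classes `l ≥ 5, l ∣ p + 1`; `l = 3, 9 ∣ p + 1`; `l = 2, 8 ∣ p + 1`.
-/

set_option autoImplicit false

namespace Fermat.Agent.S16.H99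

/-- A prime `p ≥ 5` is `1, 5, 7` or `11` modulo `12`. -/
theorem prime_mod_twelve {p : ℕ} (hp : p.Prime) (hp5 : 5 ≤ p) :
    (∃ k, p = 12 * k + 1) ∨ (∃ k, p = 12 * k + 5) ∨ (∃ k, p = 12 * k + 7) ∨
      (∃ k, p = 12 * k + 11) := by
  have h2 : ¬ 2 ∣ p := fun h => by
    have := (Nat.prime_dvd_prime_iff_eq Nat.prime_two hp).mp h
    omega
  have h3 : ¬ 3 ∣ p := fun h => by
    have := (Nat.prime_dvd_prime_iff_eq Nat.prime_three hp).mp h
    omega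
  have hk : p = 12 * (p / 12) + p % 12 := (Nat.div_add_mod p 12).symm
  have hlt : p % 12 < 12 := Nat.mod_lt _ (by norm_num)
  rcases (by omega : p % 12 = 1 ∨ p % 12 = 5 ∨ p % 12 = 7 ∨ p % 12 = 11) with h | h | h | h
  · exact Or.inl ⟨p / 12, by omega⟩
  · exact Or.inr (Or.inl ⟨p / 12, by omega⟩)
  · exact Or.inr (Or.inr (Or.inl ⟨p / 12, by omega⟩))
  · exact Or.inr (Or.inr (Or.inr ⟨p / 12, by omega⟩))

theorem gcd_twelve_of_mod {a r : ℕ} (k : ℕ) (h : a = 12 * k + r) :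
    Nat.gcd a 12 = Nat.gcd r 12 := by
  subst h
  rw [Nat.gcd_comm, Nat.gcd_comm r 12, add_comm]
  exact Nat.gcd_add_mul_left_right 12 r k

/-- The values of `n` and `κ` in the four residue classes. -/
theorem numerator_kappa_cases {p : ℕ} (hp : p.Prime) (hp5 : 5 ≤ p) :
    (∃ k, p = 12 * k + 1 ∧ ModularCurve.eisensteinNumerator p = k ∧
        (p + 1) * Nat.gcd (p - 1) 12 / 24 = 6 * k + 1) ∨
    (∃ k, p = 12 * k + 5 ∧ ModularCurve.eisensteinNumerator p = 3 * k + 1 ∧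
        (p + 1) * Nat.gcd (p - 1) 12 / 24 = 2 * k + 1) ∨
    (∃ k, p = 12 * k + 7 ∧ ModularCurve.eisensteinNumerator p = 2 * k + 1 ∧
        (p + 1) * Nat.gcd (p - 1) 12 / 24 = 3 * k + 2) ∨
    (∃ k, p = 12 * k + 11 ∧ ModularCurve.eisensteinNumerator p = 6 * k + 5 ∧
        (p + 1) * Nat.gcd (p - 1) 12 / 24 = k + 1) := by
  unfold ModularCurve.eisensteinNumerator
  rcases prime_mod_twelve hp hp5 with ⟨k, rfl⟩ | ⟨k, rfl⟩ | ⟨k, rfl⟩ | ⟨k, rfl⟩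
  · refine Or.inl ⟨k, rfl, ?_, ?_⟩
    · rw [gcd_twelve_of_mod (r := 0) k (by omega)]
      exact Nat.div_eq_of_eq_mul_left (by norm_num) (by simp; omega)
    · rw [gcd_twelve_of_mod (r := 0) k (by omega)]
      exact Nat.div_eq_of_eq_mul_left (by norm_num) (by simp; ring)
  · refine Or.inr (Or.inl ⟨k, rfl, ?_, ?_⟩)
    · rw [gcd_twelve_of_mod (r := 4) k (by omega)]
      exact Nat.div_eq_of_eq_mul_left (by norm_num) (by simp; omega)
    · rw [gcd_twelve_of_mod (r := 4) k (by omega)]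
      exact Nat.div_eq_of_eq_mul_left (by norm_num) (by simp; ring)
  · refine Or.inr (Or.inr (Or.inl ⟨k, rfl, ?_, ?_⟩))
    · rw [gcd_twelve_of_mod (r := 6) k (by omega)]
      exact Nat.div_eq_of_eq_mul_left (by norm_num) (by simp; omega)
    · rw [gcd_twelve_of_mod (r := 6) k (by omega)]
      exact Nat.div_eq_of_eq_mul_left (by norm_num) (by simp; ring)
  · refine Or.inr (Or.inr (Or.inr ⟨k, rfl, ?_, ?_⟩))
    · rw [gcd_twelve_of_mod (r := 10) k (by omega)]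
      exact Nat.div_eq_of_eq_mul_left (by norm_num) (by simp; omega)
    · rw [gcd_twelve_of_mod (r := 10) k (by omega)]
      exact Nat.div_eq_of_eq_mul_left (by norm_num) (by simp; ring)

/-- **U9 (ARITH), first half.** Every prime dividing `κ` is in an exceptional class. -/
theorem prime_dvd_kappa (p : ℕ) (hp : p.Prime) (hp5 : 5 ≤ p) (l : ℕ) (hl : l.Prime)
    (h : l ∣ (p + 1) * Nat.gcd (p - 1) 12 / 24) :
    (5 ≤ l ∧ l ∣ p + 1) ∨ (l = 3 ∧ 9 ∣ p + 1) ∨ (l = 2 ∧ 8 ∣ p + 1) := by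
  have hl2 : 2 ≤ l := hl.two_le
  have hl4 : l ≠ 4 := fun h4 => by
    rw [h4] at hl
    exact absurd hl (by decide)
  rcases numerator_kappa_cases hp hp5 with ⟨k, rfl, -, hκ⟩ | ⟨k, rfl, -, hκ⟩ | ⟨k, rfl, -, hκ⟩ |
    ⟨k, rfl, -, hκ⟩
  all_goals
    rw [hκ] at h
    obtain ⟨c, hc⟩ := h
    rcases (by omega : l = 2 ∨ l = 3 ∨ 5 ≤ l) with rfl | rfl | h5
  · omega
  · omega
  · exact Or.inl ⟨h5, ⟨2 * c, by rw [← mul_assoc, mul_comm l 2, mul_assoc, ← hc]; ring⟩⟩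
  · omega
  · exact Or.inr (Or.inl ⟨rfl, ⟨2 * c - 0, by omega⟩⟩)
  · exact Or.inl ⟨h5, ⟨6 * c, by rw [← mul_assoc, mul_comm l 6, mul_assoc, ← hc]; ring⟩⟩
  · exact Or.inr (Or.inr ⟨rfl, ⟨c, by omega⟩⟩)
  · omega
  · exact Or.inl ⟨h5, ⟨4 * c, by rw [← mul_assoc, mul_comm l 4, mul_assoc, ← hc]; ring⟩⟩
  · exact Or.inr (Or.inr ⟨rfl, ⟨3 * c, by omega⟩⟩)
  · exact Or.inr (Or.inl ⟨rfl, ⟨4 * c, by omega⟩⟩)
  · exact Or.inl ⟨h5, ⟨12 * c, by rw [← mul_assoc, mul_comm l 12, mul_assoc, ← hc]; ring⟩⟩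

/-- **U9 (ARITH), second half.** `(p² - 1) / 24 = n · κ`. -/
theorem kappa_mul (p : ℕ) (hp : p.Prime) (hp5 : 5 ≤ p) :
    (p ^ 2 - 1) / 24 =
      ModularCurve.eisensteinNumerator p * ((p + 1) * Nat.gcd (p - 1) 12 / 24) := by
  rcases numerator_kappa_cases hp hp5 with ⟨k, rfl, hn, hκ⟩ | ⟨k, rfl, hn, hκ⟩ |
    ⟨k, rfl, hn, hκ⟩ | ⟨k, rfl, hn, hκ⟩
  all_goals
    rw [hn, hκ]
    refine Nat.div_eq_of_eq_mul_left (by norm_num) ?_
    refine Nat.sub_eq_of_eq_add ?_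
    ring

/-- The arithmetic glue for `upper_core`: if `m ∣ (p² - 1) / 24` and no prime factor of `κ` divides
`m`, then `m` divides the Eisenstein numerator. -/
theorem dvd_numerator_of_coprime_kappa (p : ℕ) (hp : p.Prime) (hp5 : 5 ≤ p) (m : ℤ)
    (hm : m ∣ ((p : ℤ) ^ 2 - 1) / 24)
    (hl : ∀ l : ℕ, l.Prime → l ∣ (p + 1) * Nat.gcd (p - 1) 12 / 24 → ¬ (l : ℤ) ∣ m) :
    m ∣ (ModularCurve.eisensteinNumerator p : ℤ) := by
  have hcast : ((p : ℤ) ^ 2 - 1) / 24 = (((p ^ 2 - 1) / 24 : ℕ) : ℤ) := by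
    have h1 : 1 ≤ p ^ 2 := Nat.one_le_pow _ _ hp.pos
    rw [Int.natCast_div, Nat.cast_sub h1]
    push_cast
    rfl
  rw [hcast, kappa_mul p hp hp5, Nat.cast_mul] at hm
  have hcop : IsCoprime m (((p + 1) * Nat.gcd (p - 1) 12 / 24 : ℕ) : ℤ) := by
    rw [Int.isCoprime_iff_gcd_eq_one]
    by_contra hne
    obtain ⟨l, hlp, hldvd⟩ := Nat.exists_prime_and_dvd hne
    have h1 : (l : ℤ) ∣ m := (Int.natCast_dvd_natCast.mpr hldvd).trans (Int.gcd_dvd_left _ _)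
    have h2 : (l : ℤ) ∣ (((p + 1) * Nat.gcd (p - 1) 12 / 24 : ℕ) : ℤ) :=
      (Int.natCast_dvd_natCast.mpr hldvd).trans (Int.gcd_dvd_right _ _)
    exact hl l hlp (Int.natCast_dvd_natCast.mp h2) h1
  exact hcop.dvd_of_dvd_mul_right hm

end Fermat.Agent.S16.H99
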